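/-
Fermat/Agent/S12P/Small5/TypeAbs.lean  (helper5)

Programme S12, brick 9b (TYPE), abstract half (Mathlib + the Velu vocabulary `VeluDef51` only):
**reduction type of the Velu quotient of a Frey-shaped curve at `2`, and `c₄` at `2, 3, 5`.**

`F` a field, `A` a valuation subring, `V` a Weierstrass curve over `F` of FREY SHAPE:
`a₁ = 1`, `a₃ = a₆ = 0`, `a₂ ∈ A`, `a₄ ∈ 2A`;  `Q` a point of odd order `p`, all `x(k•Q) ∈ A`
(`0 < k < p`), `T = veluT V Q p`, `w = veluW V Q p`, `V' = veluCurve V Q p`.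

* `veluW_even`      : `w ∈ 2A`   (half-sum form: each summand is `10x³ + 2b₂x² + 3b₄x + b₆`);
* `veluT_mem`       : `T ∈ A`;
* `veluCurve_Δ_eq`, `veluCurve_c₄_eq` : `Δ(V') = T² + T + 2(…)`, `c₄(V') = 1 + 2(…)` with `… ∈ A`;
* **`val_veluCurve_two`** : if `2 ∈ 𝔪_A` and `v(T(T+1)) < 1` then `v(Δ(V')) < 1` and `v(c₄(V')) = 1`;
* `val_mul_add_one_lt_one_of_rat` : `v(T(T+1)) < 1` for `T` RATIONAL and in `A` (`2 ∈ 𝔪_A`);
* **`val_veluCurve_c₄_sub`** : `v(c₄(V') - c₄(V)) < 1` as soon as `v(240) < 1` and `T ∈ A` (any `V`), hence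
  `val_veluCurve_c₄_eq_one_iff`.
-/
import Mathlib
import Fermat.Agent.S12P.VeluDef51.Defs
import Fermat.Agent.S12P.VeluLem57.Equivariant

set_option autoImplicit false
set_option linter.unusedSectionVars false

open WeierstrassCurve

namespace Fermat.Agent.S12P.Small5

open Fermat.Agent.MAZ.ModInv Fermat.Agent.S12P.VeluDef51

/-! ### Valuations of integers and rationals at a place over `2` -/

section Two

variable {F : Type*} [Field F] {A : ValuationSubring F}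

theorem val_intCast_le_one (n : ℤ) : A.valuation ((n : ℤ) : F) ≤ 1 :=
  (A.valuation_le_one_iff _).mpr (intCast_mem A n)

theorem val_two_mul_lt_one (h2 : A.valuation (2 : F) < 1) {c : F} (hc : c ∈ A) :
    A.valuation (2 * c) < 1 := by
  rw [map_mul]
  calc A.valuation (2 : F) * A.valuation c ≤ A.valuation (2 : F) * 1 :=
        mul_le_mul_right ((A.valuation_le_one_iff c).mpr hc) _
    _ < 1 := by rw [mul_one]; exact h2

theorem val_even_intCast_lt_one (h2 : A.valuation (2 : F) < 1) {n : ℤ} (hn : Even n) :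
    A.valuation ((n : ℤ) : F) < 1 := by
  obtain ⟨k, rfl⟩ := hn
  have : (((k + k : ℤ)) : F) = 2 * ((k : ℤ) : F) := by push_cast; ring
  rw [this]
  exact val_two_mul_lt_one h2 (intCast_mem A k)

theorem val_odd_intCast_eq_one (h2 : A.valuation (2 : F) < 1) {n : ℤ} (hn : Odd n) :
    A.valuation ((n : ℤ) : F) = 1 := by
  obtain ⟨k, rfl⟩ := hn
  have : (((2 * k + 1 : ℤ)) : F) = 1 + 2 * ((k : ℤ) : F) := by push_cast; ring
  rw [this]
  exact A.valuation.map_one_add_of_lt (val_two_mul_lt_one h2 (intCast_mem A k))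

/-- **A rational number `T` lying in `A` (over `2`) has `T (T + 1) ∈ 𝔪_A`.** -/
theorem val_mul_add_one_lt_one_of_rat [CharZero F] (h2 : A.valuation (2 : F) < 1) (q : ℚ)
    (hq : ((q : ℚ) : F) ∈ A) :
    A.valuation (((q : ℚ) : F) * (((q : ℚ) : F) + 1)) < 1 := by
  have hmul : ((q : ℚ) : F) * (((q.den : ℕ) : ℤ) : F) = ((q.num : ℤ) : F) := by
    have h0 : (q : ℚ) * (q.den : ℚ) = (q.num : ℚ) := Rat.mul_den_eq_num q
    have h1 := congrArg (fun r : ℚ => ((r : ℚ) : F)) h0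
    simp only [Rat.cast_mul, Rat.cast_natCast, Rat.cast_intCast] at h1
    rw [Int.cast_natCast]
    exact h1
  have hvq : A.valuation ((q : ℚ) : F) ≤ 1 := (A.valuation_le_one_iff _).mpr hq
  -- the denominator is odd
  have hdodd : Odd ((q.den : ℕ) : ℤ) := by
    by_contra hnot
    have hdeven : Even ((q.den : ℕ) : ℤ) := Int.not_odd_iff_even.mp hnot
    have hnodd : Odd q.num := by
      by_contra hnn
      have hneven : Even q.num := Int.not_odd_iff_even.mp hnn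
      have h1 : (2 : ℤ) ∣ q.num := hneven.two_dvd
      have h2' : (2 : ℤ) ∣ ((q.den : ℕ) : ℤ) := hdeven.two_dvd
      have h3 : 2 ∣ q.num.natAbs := Int.natCast_dvd.mp (by exact_mod_cast h1)
      have h4 : 2 ∣ q.den := Int.natCast_dvd_natCast.mp (by exact_mod_cast h2')
      have h5 := Nat.dvd_gcd h3 h4
      rw [q.reduced.gcd_eq_one] at h5
      exact absurd (Nat.dvd_one.mp h5) (by norm_num)
    have hv1 : A.valuation ((q.num : ℤ) : F) = 1 := val_odd_intCast_eq_one h2 hnodd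
    have hv2 : A.valuation ((((q.den : ℕ) : ℤ)) : F) < 1 := val_even_intCast_lt_one h2 hdeven
    have hlt : A.valuation (((q : ℚ) : F) * ((((q.den : ℕ) : ℤ)) : F)) < 1 := by
      rw [map_mul]
      calc A.valuation ((q : ℚ) : F) * A.valuation ((((q.den : ℕ) : ℤ)) : F)
          ≤ 1 * A.valuation ((((q.den : ℕ) : ℤ)) : F) := mul_le_mul_left hvq _
        _ < 1 := by rw [one_mul]; exact hv2
    rw [hmul, hv1] at hlt
    exact lt_irrefl _ hlt
  have hvd : A.valuation ((((q.den : ℕ) : ℤ)) : F) = 1 := val_odd_intCast_eq_one h2 hdodd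
  -- `T (T + 1) d² = n (n + d)`, and `n (n + d)` is even
  have hprod : ((q : ℚ) : F) * (((q : ℚ) : F) + 1) * ((((q.den : ℕ) : ℤ)) : F) ^ 2 =
      (((q.num * (q.num + ((q.den : ℕ) : ℤ)) : ℤ)) : F) := by
    rw [Int.cast_mul, Int.cast_add]
    linear_combination (((q : ℚ) : F) * ((((q.den : ℕ) : ℤ)) : F) + ((q.num : ℤ) : F)
      + ((((q.den : ℕ) : ℤ)) : F)) * hmul
  have heven : Even (q.num * (q.num + ((q.den : ℕ) : ℤ))) := by
    rcases Int.even_or_odd q.num with hn | hn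
    · exact hn.mul_right _
    · exact (hn.add_odd hdodd).mul_left _
  have hv := val_even_intCast_lt_one (A := A) h2 heven
  rw [← hprod, map_mul, map_pow, hvd, one_pow, mul_one] at hv
  exact hv

end Two

/-! ### The two polynomials -/

section Poly

variable {F : Type*} [Field F] {A : ValuationSubring F}

/-- The polynomial `P` with `Δ' = T² + T + 2 P(a₂, α, T, ω)` (machine generated). -/
def freyP (a α T ω : F) : F :=
  8 * T * a - 656 * T * a * α - 14112 * T * a * ω + 48 * T * a ^ 2 - 1312 * T * a ^ 2 * α + 128 *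
  T * a ^ 3 + 128 * T * a ^ 4 - 82 * T * α + 1920 * T * α ^ 2 - 3528 * T * ω - 24 * T ^ 2 - 188 *
  T ^ 2 * a - 376 * T ^ 2 * a ^ 2 - 4800 * T ^ 2 * α + 4000 * T ^ 3 - 4032 * a * α * ω + 16 * a *
  α ^ 2 + 84 * a * ω + 32 * a ^ 2 * α ^ 2 + 336 * a ^ 2 * ω + 448 * a ^ 3 * ω - 1008 * α * ω + 2 *
  α ^ 2 - 256 * α ^ 3 + 7 * ω - 42336 * ω ^ 2

/-- The polynomial `P₂` with `c₄' = 1 + 2 P₂(a₂, α, T)`. -/
def freyP₂ (a α T : F) : F := 120 * T + 4 * a + 8 * a ^ 2 - 48 * α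

theorem freyP_mem {a α T ω : F} (ha : a ∈ A) (hα : α ∈ A) (hT : T ∈ A) (hω : ω ∈ A) :
    freyP a α T ω ∈ A :=
  (sub_mem (add_mem (sub_mem (add_mem (sub_mem (add_mem (add_mem (add_mem (add_mem (add_mem
  (sub_mem (add_mem (sub_mem (sub_mem (sub_mem (sub_mem (sub_mem (add_mem (sub_mem (add_mem
  (add_mem (sub_mem (add_mem (sub_mem (sub_mem (mul_mem (mul_mem (ofNat_mem A 8) hT) ha) (mul_mem
  (mul_mem (mul_mem (ofNat_mem A 656) hT) ha) hα)) (mul_mem (mul_mem (mul_mem (ofNat_mem A 14112)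
  hT) ha) hω)) (mul_mem (mul_mem (ofNat_mem A 48) hT) (pow_mem ha 2))) (mul_mem (mul_mem (mul_mem
  (ofNat_mem A 1312) hT) (pow_mem ha 2)) hα)) (mul_mem (mul_mem (ofNat_mem A 128) hT) (pow_mem ha
  3))) (mul_mem (mul_mem (ofNat_mem A 128) hT) (pow_mem ha 4))) (mul_mem (mul_mem (ofNat_mem A 82)
  hT) hα)) (mul_mem (mul_mem (ofNat_mem A 1920) hT) (pow_mem hα 2))) (mul_mem (mul_mem (ofNat_mem
  A 3528) hT) hω)) (mul_mem (ofNat_mem A 24) (pow_mem hT 2))) (mul_mem (mul_mem (ofNat_mem A 188)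
  (pow_mem hT 2)) ha)) (mul_mem (mul_mem (ofNat_mem A 376) (pow_mem hT 2)) (pow_mem ha 2)))
  (mul_mem (mul_mem (ofNat_mem A 4800) (pow_mem hT 2)) hα)) (mul_mem (ofNat_mem A 4000) (pow_mem
  hT 3))) (mul_mem (mul_mem (mul_mem (ofNat_mem A 4032) ha) hα) hω)) (mul_mem (mul_mem (ofNat_mem
  A 16) ha) (pow_mem hα 2))) (mul_mem (mul_mem (ofNat_mem A 84) ha) hω)) (mul_mem (mul_mem
  (ofNat_mem A 32) (pow_mem ha 2)) (pow_mem hα 2))) (mul_mem (mul_mem (ofNat_mem A 336) (pow_mem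
  ha 2)) hω)) (mul_mem (mul_mem (ofNat_mem A 448) (pow_mem ha 3)) hω)) (mul_mem (mul_mem
  (ofNat_mem A 1008) hα) hω)) (mul_mem (ofNat_mem A 2) (pow_mem hα 2))) (mul_mem (ofNat_mem A 256)
  (pow_mem hα 3))) (mul_mem (ofNat_mem A 7) hω)) (mul_mem (ofNat_mem A 42336) (pow_mem hω 2)))

theorem freyP₂_mem {a α T : F} (ha : a ∈ A) (hα : α ∈ A) (hT : T ∈ A) : freyP₂ a α T ∈ A :=
  (sub_mem (add_mem (add_mem (mul_mem (ofNat_mem A 120) hT) (mul_mem (ofNat_mem A 4) ha)) (mul_mem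
  (ofNat_mem A 8) (pow_mem ha 2))) (mul_mem (ofNat_mem A 48) hα))

end Poly

/-! ### The Velu quotient of a Frey-shaped curve -/

section Frey

variable {F : Type*} [Field F] [DecidableEq F] {A : ValuationSubring F} (V : WeierstrassCurve F)
  (Q : V.toAffine.Point) {p : ℕ}

/-- `ψ₂² = 4x³ + b₂x² + 2b₄x + b₆` on the curve. -/
theorem uq_eq_cubic {R : V.toAffine.Point} (hR : R ≠ 0) :
    uq V R = 4 * xco V R ^ 3 + V.b₂ * xco V R ^ 2 + 2 * V.b₄ * xco V R + V.b₆ := by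
  cases R with
  | zero => exact absurd rfl hR
  | some x y h =>
    have heq := (Affine.equation_iff x y).mp h.1
    simp only [uq, psi2_some, xco_some, WeierstrassCurve.b₂, WeierstrassCurve.b₄,
      WeierstrassCurve.b₆]
    linear_combination 4 * heq

/-- **`w ∈ 2A`** for a Frey-shaped curve. -/
theorem veluW_even (ha₁ : V.a₁ = 1) (ha₃ : V.a₃ = 0) (ha₆ : V.a₆ = 0) (ha₂ : V.a₂ ∈ A)
    (ha₄ : V.a₄ ∈ A) (hp : Odd p) (hQ : p • Q = 0)
    (hne : ∀ k ∈ Finset.Ico 1 p, k • Q ≠ 0)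
    (hx : ∀ k ∈ Finset.Ico 1 p, xco V (k • Q) ∈ A) :
    ∃ ω ∈ A, veluW V Q p = 2 * ω := by
  have hne' := VeluLem57.ne_zero_half hne
  have hx' := VeluLem57.ne_zero_half hx
  rw [← VeluLem57.veluW_eq V Q hp hQ hne', VeluDef34.veluW]
  refine ⟨∑ k ∈ Finset.Ico 1 ((p + 1) / 2),
    (5 * xco V (k • Q) ^ 3 + V.b₂ * xco V (k • Q) ^ 2 + 3 * V.a₄ * xco V (k • Q)), ?_, ?_⟩
  · refine sum_mem fun k hk => ?_
    have hxk := hx' k hk
    have hb₂ : V.b₂ ∈ A := by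
      rw [WeierstrassCurve.b₂, ha₁]
      exact add_mem (pow_mem A.one_mem 2) (mul_mem (by exact_mod_cast natCast_mem A 4) ha₂)
    exact add_mem (add_mem (mul_mem (by exact_mod_cast natCast_mem A 5) (pow_mem hxk 3))
      (mul_mem hb₂ (pow_mem hxk 2)))
      (mul_mem (mul_mem (by exact_mod_cast natCast_mem A 3) ha₄) hxk)
  · rw [Finset.mul_sum]
    refine Finset.sum_congr rfl fun k hk => ?_
    have e1 : VeluDef34.uq V (k • Q) = uq V (k • Q) := rfl
    rw [e1, uq_eq_cubic V (hne' k hk), VeluDef34.tq]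
    simp only [WeierstrassCurve.b₄, WeierstrassCurve.b₆, ha₃, ha₆]
    ring

/-- **`T ∈ A`.** -/
theorem veluT_mem (ha₁ : V.a₁ ∈ A) (ha₂ : V.a₂ ∈ A) (ha₃ : V.a₃ ∈ A) (ha₄ : V.a₄ ∈ A)
    (hp : Odd p) (hQ : p • Q = 0)
    (hne : ∀ k ∈ Finset.Ico 1 p, k • Q ≠ 0)
    (hx : ∀ k ∈ Finset.Ico 1 p, xco V (k • Q) ∈ A) : veluT V Q p ∈ A := by
  have hne' := VeluLem57.ne_zero_half hne
  have hx' := VeluLem57.ne_zero_half hx
  rw [← VeluLem57.veluT_eq V Q hp hQ hne', VeluDef34.veluT]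
  refine sum_mem fun k hk => ?_
  have hxk := hx' k hk
  rw [VeluDef34.tq, WeierstrassCurve.b₂, WeierstrassCurve.b₄]
  exact add_mem (add_mem (mul_mem (by exact_mod_cast natCast_mem A 6) (pow_mem hxk 2))
    (mul_mem (add_mem (pow_mem ha₁ 2) (mul_mem (by exact_mod_cast natCast_mem A 4) ha₂)) hxk))
    (add_mem (mul_mem (by exact_mod_cast natCast_mem A 2) ha₄) (mul_mem ha₁ ha₃))

/-- `Δ` of the quotient of a Frey-shaped curve: `Δ' = T² + T + 2 P`. -/
theorem veluCurve_Δ_eq (ha₁ : V.a₁ = 1) (ha₃ : V.a₃ = 0) (ha₆ : V.a₆ = 0)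
    {α ω : F} (hα : V.a₄ = 2 * α) (hω : veluW V Q p = 2 * ω) :
    (veluCurve V Q p).Δ = veluT V Q p ^ 2 + veluT V Q p +
      2 * freyP V.a₂ α (veluT V Q p) ω := by
  simp only [WeierstrassCurve.Δ, WeierstrassCurve.b₂, WeierstrassCurve.b₄, WeierstrassCurve.b₆,
    WeierstrassCurve.b₈, veluCurve, ha₁, ha₃, ha₆, hα, hω, freyP]
  ring

/-- `c₄` of the quotient of a Frey-shaped curve: `c₄' = 1 + 2 P₂`. -/
theorem veluCurve_c₄_eq (ha₁ : V.a₁ = 1) (ha₃ : V.a₃ = 0) {α : F} (hα : V.a₄ = 2 * α) :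
    (veluCurve V Q p).c₄ = 1 + 2 * freyP₂ V.a₂ α (veluT V Q p) := by
  simp only [WeierstrassCurve.c₄, WeierstrassCurve.b₂, WeierstrassCurve.b₄, veluCurve, ha₁, ha₃, hα,
    freyP₂]
  ring

/-- **TYPE at `2`**: the Velu quotient of a Frey-shaped curve has `2 ∣ Δ'` and `2 ∤ c₄'`. -/
theorem val_veluCurve_two (h2 : A.valuation (2 : F) < 1)
    (ha₁ : V.a₁ = 1) (ha₃ : V.a₃ = 0) (ha₆ : V.a₆ = 0) (ha₂ : V.a₂ ∈ A)
    (ha₄ : ∃ α ∈ A, V.a₄ = 2 * α) (hp : Odd p) (hQ : p • Q = 0)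
    (hne : ∀ k ∈ Finset.Ico 1 p, k • Q ≠ 0)
    (hx : ∀ k ∈ Finset.Ico 1 p, xco V (k • Q) ∈ A)
    (hT : A.valuation (veluT V Q p * (veluT V Q p + 1)) < 1) :
    A.valuation (veluCurve V Q p).Δ < 1 ∧ A.valuation (veluCurve V Q p).c₄ = 1 := by
  obtain ⟨α, hαA, hα⟩ := ha₄
  have ha₄A : V.a₄ ∈ A := by
    rw [hα]; exact mul_mem (ofNat_mem A 2) hαA
  obtain ⟨ω, hωA, hω⟩ := veluW_even V Q ha₁ ha₃ ha₆ ha₂ ha₄A hp hQ hne hx
  have hTA : veluT V Q p ∈ A :=
    veluT_mem V Q (ha₁ ▸ A.one_mem) ha₂ (ha₃ ▸ A.zero_mem) ha₄A hp hQ hne hx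
  constructor
  · rw [veluCurve_Δ_eq V Q ha₁ ha₃ ha₆ hα hω]
    have e : veluT V Q p ^ 2 + veluT V Q p = veluT V Q p * (veluT V Q p + 1) := by ring
    rw [e]
    exact lt_of_le_of_lt (Valuation.map_add _ _ _)
      (max_lt hT (val_two_mul_lt_one h2 (freyP_mem ha₂ hαA hTA hωA)))
  · rw [veluCurve_c₄_eq V Q ha₁ ha₃ hα]
    exact A.valuation.map_one_add_of_lt (val_two_mul_lt_one h2 (freyP₂_mem ha₂ hαA hTA))

/-- **`c₄` at `2, 3, 5`** (any curve `V`): `c₄(V') ≡ c₄(V)`. -/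
theorem val_veluCurve_c₄_sub (h240 : A.valuation (240 : F) < 1) (hT : veluT V Q p ∈ A) :
    A.valuation ((veluCurve V Q p).c₄ - V.c₄) < 1 := by
  rw [veluCurve_c₄, add_sub_cancel_left, map_mul]
  calc A.valuation (240 : F) * A.valuation (veluT V Q p)
      ≤ A.valuation (240 : F) * 1 :=
        mul_le_mul_right ((A.valuation_le_one_iff _).mpr hT) _
    _ < 1 := by rw [mul_one]; exact h240

theorem val_veluCurve_c₄_eq_one_iff (h240 : A.valuation (240 : F) < 1) (hT : veluT V Q p ∈ A) :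
    A.valuation (veluCurve V Q p).c₄ = 1 ↔ A.valuation V.c₄ = 1 := by
  have hsub := val_veluCurve_c₄_sub V Q h240 hT
  constructor
  · intro h
    have e : V.c₄ = (veluCurve V Q p).c₄ - ((veluCurve V Q p).c₄ - V.c₄) := by ring
    rw [e, Valuation.map_sub_eq_of_lt_left _ (by rw [h]; exact hsub), h]
  · intro h
    have e : (veluCurve V Q p).c₄ = V.c₄ + ((veluCurve V Q p).c₄ - V.c₄) := by ring
    rw [e, Valuation.map_add_eq_of_lt_left _ (by rw [h]; exact hsub), h]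

theorem val_240_lt_one_of_three (h3 : A.valuation (3 : F) < 1) : A.valuation (240 : F) < 1 := by
  have : (240 : F) = 3 * ((80 : ℕ) : F) := by push_cast; norm_num
  rw [this, map_mul]
  calc A.valuation (3 : F) * A.valuation ((80 : ℕ) : F)
      ≤ A.valuation (3 : F) * 1 :=
        mul_le_mul_right ((A.valuation_le_one_iff _).mpr (natCast_mem A 80)) _
    _ < 1 := by rw [mul_one]; exact h3

theorem val_240_lt_one_of_two (h2 : A.valuation (2 : F) < 1) : A.valuation (240 : F) < 1 := by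
  have : (240 : F) = 2 * ((120 : ℕ) : F) := by push_cast; norm_num
  rw [this]
  exact val_two_mul_lt_one h2 (natCast_mem A 120)

end Frey

end Fermat.Agent.S12P.Small5
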