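/-
Fermat/Agent/S12P/Small5/TypeFrey.lean  (helper5)

Programme S12, brick 9b (TYPE), Frey instance: **the Velu quotient `V' = veluCurve E t p` of the Frey
curve by a point `t` of order `p` has `2 ∣ Δ'`, `2 ∤ c₄'`, and `c₄' ≡ c₄` modulo `2, 3, 5`.**

`E` is given in two forms: `P.freyCurveInt.map (Int.castRingHom F)` over any field `F` of characteristic
`0` with a valuation subring `A` (`frey_type_two`, `frey_c₄_sub`, `frey_c₄_eq_one_iff`), and
`P.freyCurve.baseChange ℚ̄` with `A.LiesOverPrime 2` resp. `3` (`frey_type_two_Qb`, `frey_c₄_sub_three_Qb`,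
`frey_c₄_eq_one_iff_three_Qb`).  Hypotheses: `p • t = 0`, `t ≠ 0` (`p = P.p` prime), all `x(k•t) ∈ A`
for `0 < k < p` (true at every place not over `p`), and for the type at `2`: `veluT E t p` is RATIONAL
(true as soon as `⟨t⟩` is Galois-stable: `VeluDef61.galois_veluT`).
-/
import Mathlib
import Fermat.Agent.S12P.Small5.TypeAbs
import Fermat.Agent.S04.FreyIntegral
import Fermat.Prelude.Def_FLTPrelim_Ramification

set_option autoImplicit false
set_option linter.unusedSectionVars false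

open WeierstrassCurve

namespace Fermat.Agent.S12P.Small5

open Fermat.Agent.MAZ.ModInv Fermat.Agent.S12P.VeluDef51

/-! ### Multiples of a point of prime order -/

theorem nsmul_ne_zero_of_prime {G : Type*} [AddGroup G] {p : ℕ} (hp : p.Prime) {t : G}
    (ht : p • t = 0) (ht0 : t ≠ 0) : ∀ k ∈ Finset.Ico 1 p, k • t ≠ 0 := by
  intro k hk h0
  rw [Finset.mem_Ico] at hk
  have : Fact p.Prime := ⟨hp⟩
  have hord : addOrderOf t = p := addOrderOf_eq_prime ht ht0
  have hdvd : p ∣ k := by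
    rw [← hord]; exact addOrderOf_dvd_of_nsmul_eq_zero h0
  have := Nat.le_of_dvd (by omega) hdvd
  omega

/-! ### The Frey curve over a general field -/

section General

variable (P : FreyPackage) {F : Type*} [Field F] [CharZero F] [DecidableEq F]
  {A : ValuationSubring F}

/-- The Frey curve over `F`. -/
abbrev freyF (F : Type*) [Field F] : WeierstrassCurve F := P.freyCurveInt.map (Int.castRingHom F)

theorem freyF_a₁ : (freyF P F).a₁ = 1 := by
  simp [freyF, FreyPackage.freyCurveInt]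

theorem freyF_a₃ : (freyF P F).a₃ = 0 := by
  simp [freyF, FreyPackage.freyCurveInt]

theorem freyF_a₆ : (freyF P F).a₆ = 0 := by
  simp [freyF, FreyPackage.freyCurveInt]

theorem freyF_a₂_mem : (freyF P F).a₂ ∈ A := by
  rw [freyF, map_a₂, eq_intCast]
  exact intCast_mem A _

/-- `a₄` of the Frey curve is even. -/
theorem freyF_a₄_even : ∃ α ∈ A, (freyF P F).a₄ = 2 * α := by
  obtain ⟨k, hk⟩ := Fermat.Agent.S04.FreyIntegral.thirtytwo_dvd_b_pow P
  have h16 := Fermat.Agent.S04.FreyIntegral.sixteen_mul_a₄ P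
  have h : P.freyCurveInt.a₄ = 2 * (-(P.a ^ P.p) * k) := by
    have : (16 : ℤ) * P.freyCurveInt.a₄ = 16 * (2 * (-(P.a ^ P.p) * k)) := by
      rw [h16, hk]; ring
    exact mul_left_cancel₀ (by norm_num) this
  refine ⟨((-(P.a ^ P.p) * k : ℤ) : F), intCast_mem A _, ?_⟩
  rw [freyF, map_a₄, eq_intCast, h]
  push_cast
  ring

/-- **TYPE at `2` for the Frey curve** (general field). -/
theorem frey_type_two (h2 : A.valuation (2 : F) < 1)
    (t : (freyF P F).toAffine.Point) (ht : P.p • t = 0) (ht0 : t ≠ 0)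
    (hx : ∀ k ∈ Finset.Ico 1 P.p, xco (freyF P F) (k • t) ∈ A)
    (hT : ∃ q : ℚ, veluT (freyF P F) t P.p = ((q : ℚ) : F)) :
    A.valuation (veluCurve (freyF P F) t P.p).Δ < 1 ∧
      A.valuation (veluCurve (freyF P F) t P.p).c₄ = 1 := by
  have hne := nsmul_ne_zero_of_prime P.pp ht ht0
  obtain ⟨α, hαA, hα⟩ := freyF_a₄_even (A := A) P
  have ha₄A : (freyF P F).a₄ ∈ A := by
    rw [hα]; exact mul_mem (ofNat_mem A 2) hαA
  have hTA : veluT (freyF P F) t P.p ∈ A :=
    veluT_mem (freyF P F) t (by rw [freyF_a₁]; exact A.one_mem) (freyF_a₂_mem P)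
      (by rw [freyF_a₃]; exact A.zero_mem) ha₄A P.hp_odd ht hne hx
  obtain ⟨q, hq⟩ := hT
  have hTT : A.valuation (veluT (freyF P F) t P.p * (veluT (freyF P F) t P.p + 1)) < 1 := by
    rw [hq]
    exact val_mul_add_one_lt_one_of_rat h2 q (hq ▸ hTA)
  exact val_veluCurve_two (freyF P F) t h2 (freyF_a₁ P) (freyF_a₃ P) (freyF_a₆ P) (freyF_a₂_mem P)
    ⟨α, hαA, hα⟩ P.hp_odd ht hne hx hTT

/-- **`c₄' ≡ c₄` at `2, 3, 5` for the Frey curve** (general field). -/
theorem frey_c₄_sub (h240 : A.valuation (240 : F) < 1)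
    (t : (freyF P F).toAffine.Point) (ht : P.p • t = 0) (ht0 : t ≠ 0)
    (hx : ∀ k ∈ Finset.Ico 1 P.p, xco (freyF P F) (k • t) ∈ A) :
    A.valuation ((veluCurve (freyF P F) t P.p).c₄ - (freyF P F).c₄) < 1 := by
  have hne := nsmul_ne_zero_of_prime P.pp ht ht0
  obtain ⟨α, hαA, hα⟩ := freyF_a₄_even (A := A) P
  have ha₄A : (freyF P F).a₄ ∈ A := by
    rw [hα]; exact mul_mem (ofNat_mem A 2) hαA
  have hTA : veluT (freyF P F) t P.p ∈ A :=
    veluT_mem (freyF P F) t (by rw [freyF_a₁]; exact A.one_mem) (freyF_a₂_mem P)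
      (by rw [freyF_a₃]; exact A.zero_mem) ha₄A P.hp_odd ht hne hx
  exact val_veluCurve_c₄_sub (freyF P F) t h240 hTA

theorem frey_c₄_eq_one_iff (h240 : A.valuation (240 : F) < 1)
    (t : (freyF P F).toAffine.Point) (ht : P.p • t = 0) (ht0 : t ≠ 0)
    (hx : ∀ k ∈ Finset.Ico 1 P.p, xco (freyF P F) (k • t) ∈ A) :
    A.valuation (veluCurve (freyF P F) t P.p).c₄ = 1 ↔ A.valuation (freyF P F).c₄ = 1 := by
  have hne := nsmul_ne_zero_of_prime P.pp ht ht0
  obtain ⟨α, hαA, hα⟩ := freyF_a₄_even (A := A) P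
  have ha₄A : (freyF P F).a₄ ∈ A := by
    rw [hα]; exact mul_mem (ofNat_mem A 2) hαA
  have hTA : veluT (freyF P F) t P.p ∈ A :=
    veluT_mem (freyF P F) t (by rw [freyF_a₁]; exact A.one_mem) (freyF_a₂_mem P)
      (by rw [freyF_a₃]; exact A.zero_mem) ha₄A P.hp_odd ht hne hx
  exact val_veluCurve_c₄_eq_one_iff (freyF P F) t h240 hTA

end General

/-! ### Over `ℚ̄`, for `P.freyCurve.baseChange ℚ̄` -/

section Qbar

local notation "Qb" => AlgebraicClosure ℚ

variable (P : FreyPackage) {A : ValuationSubring Qb}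

/-- `P.freyCurve.baseChange ℚ̄` is the integral Frey curve mapped to `ℚ̄`. -/
theorem freyCurve_baseChange_eq : P.freyCurve.baseChange Qb = freyF P Qb := by
  rw [← Fermat.Agent.S04.FreyIntegral.freyCurveInt_map P]
  change (P.freyCurveInt.map (Int.castRingHom ℚ)).map (algebraMap ℚ Qb) = _
  rw [WeierstrassCurve.map_map]
  congr 1

theorem val_lt_one_of_liesOver {ℓ : ℕ} (hA : A.LiesOverPrime ℓ) : A.valuation ((ℓ : ℕ) : Qb) < 1 :=
  hA

/-- **TYPE at `2`** for `V' = veluCurve (P.freyCurve.baseChange ℚ̄) t p`: `2 ∣ Δ'`, `2 ∤ c₄'`. -/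
theorem frey_type_two_Qb (hA : A.LiesOverPrime 2)
    (t : (P.freyCurve.baseChange Qb).toAffine.Point) (ht : P.p • t = 0) (ht0 : t ≠ 0)
    (hx : ∀ k ∈ Finset.Ico 1 P.p, xco (P.freyCurve.baseChange Qb) (k • t) ∈ A)
    (hT : veluT (P.freyCurve.baseChange Qb) t P.p ∈ Set.range (algebraMap ℚ Qb)) :
    A.valuation (veluCurve (P.freyCurve.baseChange Qb) t P.p).Δ < 1 ∧
      A.valuation (veluCurve (P.freyCurve.baseChange Qb) t P.p).c₄ = 1 := by
  classical
  have h2 : A.valuation (2 : Qb) < 1 := by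
    have := val_lt_one_of_liesOver hA
    simpa using this
  have hE := freyCurve_baseChange_eq P
  revert t
  rw [hE]
  intro t ht ht0 hx hT
  obtain ⟨q, hq⟩ := hT
  exact frey_type_two P h2 t ht ht0 hx ⟨q, by rw [← hq, eq_ratCast]⟩

/-- **`c₄' ≡ c₄` at `3`** for `V' = veluCurve (P.freyCurve.baseChange ℚ̄) t p`. -/
theorem frey_c₄_sub_three_Qb (hA : A.LiesOverPrime 3)
    (t : (P.freyCurve.baseChange Qb).toAffine.Point) (ht : P.p • t = 0) (ht0 : t ≠ 0)
    (hx : ∀ k ∈ Finset.Ico 1 P.p, xco (P.freyCurve.baseChange Qb) (k • t) ∈ A) :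
    A.valuation ((veluCurve (P.freyCurve.baseChange Qb) t P.p).c₄ -
      (P.freyCurve.baseChange Qb).c₄) < 1 := by
  classical
  have h3 : A.valuation (3 : Qb) < 1 := by
    have := val_lt_one_of_liesOver hA
    simpa using this
  have hE := freyCurve_baseChange_eq P
  revert t
  rw [hE]
  intro t ht ht0 hx
  exact frey_c₄_sub P (val_240_lt_one_of_three h3) t ht ht0 hx

/-- `3 ∤ c₄'` iff `3 ∤ c₄`. -/
theorem frey_c₄_eq_one_iff_three_Qb (hA : A.LiesOverPrime 3)
    (t : (P.freyCurve.baseChange Qb).toAffine.Point) (ht : P.p • t = 0) (ht0 : t ≠ 0)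
    (hx : ∀ k ∈ Finset.Ico 1 P.p, xco (P.freyCurve.baseChange Qb) (k • t) ∈ A) :
    A.valuation (veluCurve (P.freyCurve.baseChange Qb) t P.p).c₄ = 1 ↔
      A.valuation (P.freyCurve.baseChange Qb).c₄ = 1 := by
  classical
  have h3 : A.valuation (3 : Qb) < 1 := by
    have := val_lt_one_of_liesOver hA
    simpa using this
  have hE := freyCurve_baseChange_eq P
  revert t
  rw [hE]
  intro t ht ht0 hx
  exact frey_c₄_eq_one_iff P (val_240_lt_one_of_three h3) t ht ht0 hx

end Qbar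

end Fermat.Agent.S12P.Small5
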